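import Mathlib
import Fermat.Agent.LT.T7.H57.PairBSpec

/-!
# Row LT, tower T7, node T7.L2.1.H2a.B (cut of helper57): leaf PB.3 `NatShapeC57`,
# the ARCHIMEDEAN part (helper873)

OFF-MAIN.  Right translations by central elements of `GL₂(ℂ)`: they commute with the convolution
(`T6.convInt`, left Haar measure) and with the iterated convolution `H305.convL305`; the
translates of the archimedean components of a pure tensor by real scalar matrices satisfy the
archimedean clauses of the local hypotheses again.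
-/

set_option autoImplicit false

open MeasureTheory
open scoped Matrix

noncomputable section

namespace Fermat.Agent.LT.T7.H873

open Fermat.Agent.LT Fermat.Agent.LT.T7 Fermat.Agent.LT.T7.H305

/-- The right translate `Φ(· z⁻¹)` on `GL₂(ℂ)`. -/
def trC873 (z : GL (Fin 2) ℂ) (Φ : GL (Fin 2) ℂ → ℂ) : GL (Fin 2) ℂ → ℂ :=
  fun x => Φ (x * z⁻¹)

theorem trC_apply873 (z : GL (Fin 2) ℂ) (Φ : GL (Fin 2) ℂ → ℂ) (x : GL (Fin 2) ℂ) :
    trC873 z Φ x = Φ (x * z⁻¹) := rfl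

theorem continuous_trC873 (z : GL (Fin 2) ℂ) {Φ : GL (Fin 2) ℂ → ℂ} (h : Continuous Φ) :
    Continuous (trC873 z Φ) :=
  h.comp (continuous_id.mul continuous_const)

theorem hasCompactSupport_trC873 (z : GL (Fin 2) ℂ) {Φ : GL (Fin 2) ℂ → ℂ}
    (h : HasCompactSupport Φ) : HasCompactSupport (trC873 z Φ) :=
  h.comp_homeomorph (Homeomorph.mulRight z⁻¹)

/-- The convolution commutes with the right translations by central elements. -/
theorem convInt_trC873 (μc : @Measure (GL (Fin 2) ℂ) (borel _))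
    (hμ : @Measure.IsHaarMeasure _ _ _ (borel _) μc) (z z' : GL (Fin 2) ℂ)
    (hz : ∀ x : GL (Fin 2) ℂ, z * x = x * z) (f g : GL (Fin 2) ℂ → ℂ) :
    @T6.convInt _ _ (borel _) μc (trC873 z f) (trC873 z' g)
      = trC873 (z * z') (@T6.convInt _ _ (borel _) μc f g) := by
  let _ : MeasurableSpace (GL (Fin 2) ℂ) := borel _
  have : BorelSpace (GL (Fin 2) ℂ) := ⟨rfl⟩
  have := hμ
  funext x
  show ∫ y, f (y * z⁻¹) * g (y⁻¹ * x * z'⁻¹) ∂μc
    = ∫ y, f y * g (y⁻¹ * (x * (z * z')⁻¹)) ∂μc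
  have hzi : ∀ x : GL (Fin 2) ℂ, z⁻¹ * x = x * z⁻¹ := by
    intro x
    have := hz (z⁻¹ * x * z⁻¹)
    calc z⁻¹ * x = z⁻¹ * x * z⁻¹ * z := by group
      _ = z * (z⁻¹ * x * z⁻¹) := (hz _).symm
      _ = x * z⁻¹ := by group
  have key : ∀ y : GL (Fin 2) ℂ, f (y * z⁻¹) * g (y⁻¹ * x * z'⁻¹)
      = (fun y => f y * g (y⁻¹ * (x * (z * z')⁻¹))) (z⁻¹ * y) := by
    intro y
    show _ = f (z⁻¹ * y) * g ((z⁻¹ * y)⁻¹ * (x * (z * z')⁻¹))
    rw [hzi y]
    congr 2
    calc y⁻¹ * x * z'⁻¹ = y⁻¹ * x * z'⁻¹ * z * z⁻¹ := by group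
      _ = z * (y⁻¹ * x * z'⁻¹) * z⁻¹ := by rw [hz (y⁻¹ * x * z'⁻¹)]
      _ = (y * z⁻¹)⁻¹ * (x * (z * z')⁻¹) := by group
  simp_rw [key]
  exact integral_mul_left_eq_self (fun y => f y * g (y⁻¹ * (x * (z * z')⁻¹))) z⁻¹

/-- The product `z 0 * z 1 * ⋯ * z k`. -/
def prodTo873 (z : ℕ → GL (Fin 2) ℂ) : ℕ → GL (Fin 2) ℂ
  | 0 => z 0
  | (k + 1) => prodTo873 z k * z (k + 1)

theorem prodTo_central873 (z : ℕ → GL (Fin 2) ℂ)
    (hz : ∀ (j : ℕ) (x : GL (Fin 2) ℂ), z j * x = x * z j) (k : ℕ) (x : GL (Fin 2) ℂ) :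
    prodTo873 z k * x = x * prodTo873 z k := by
  induction k with
  | zero => exact hz 0 x
  | succ k ih =>
    show prodTo873 z k * z (k + 1) * x = x * (prodTo873 z k * z (k + 1))
    rw [mul_assoc, hz (k + 1) x, ← mul_assoc, ih, mul_assoc]

/-- The iterated convolution of translates by central elements is the translate of the iterated
convolution by the product. -/
theorem convL_trC873 (μc : @Measure (GL (Fin 2) ℂ) (borel _))
    (hμ : @Measure.IsHaarMeasure _ _ _ (borel _) μc) (z : ℕ → GL (Fin 2) ℂ)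
    (hz : ∀ (j : ℕ) (x : GL (Fin 2) ℂ), z j * x = x * z j) (Φ : ℕ → GL (Fin 2) ℂ → ℂ) (k : ℕ) :
    convL305 μc (fun j => trC873 (z j) (Φ j)) k
      = trC873 (prodTo873 z k) (convL305 μc Φ k) := by
  induction k with
  | zero => rfl
  | succ k ih =>
    show @T6.convInt _ _ (borel _) μc (convL305 μc (fun j => trC873 (z j) (Φ j)) k)
        (trC873 (z (k + 1)) (Φ (k + 1)))
      = trC873 (prodTo873 z k * z (k + 1))
          (@T6.convInt _ _ (borel _) μc (convL305 μc Φ k) (Φ (k + 1)))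
    rw [ih]
    exact convInt_trC873 μc hμ _ _ (prodTo_central873 z hz k) _ _

/-! ## Real scalar matrices -/

/-- `z` is the scalar matrix of the real number `c`. -/
def IsScal873 (z : GL (Fin 2) ℂ) (c : ℝ) : Prop :=
  (z : Matrix (Fin 2) (Fin 2) ℂ) = Matrix.diagonal fun _ => ((c : ℝ) : ℂ)

theorem IsScal873.central {z : GL (Fin 2) ℂ} {c : ℝ} (h : IsScal873 z c) (x : GL (Fin 2) ℂ) :
    z * x = x * z := by
  apply Units.ext
  show (z : Matrix (Fin 2) (Fin 2) ℂ) * (x : Matrix (Fin 2) (Fin 2) ℂ)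
    = (x : Matrix (Fin 2) (Fin 2) ℂ) * (z : Matrix (Fin 2) (Fin 2) ℂ)
  rw [h, ← Matrix.smul_one_eq_diagonal, Matrix.smul_mul, Matrix.mul_smul, one_mul, mul_one]

theorem IsScal873.central_inv {z : GL (Fin 2) ℂ} {c : ℝ} (h : IsScal873 z c)
    (x : GL (Fin 2) ℂ) : z⁻¹ * x = x * z⁻¹ := by
  calc z⁻¹ * x = z⁻¹ * (x * z) * z⁻¹ := by group
    _ = z⁻¹ * (z * x) * z⁻¹ := by rw [h.central x]
    _ = x * z⁻¹ := by group

theorem IsScal873.conj {z : GL (Fin 2) ℂ} {c : ℝ} (h : IsScal873 z c) : conjGL305 z = z := by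
  apply Units.ext
  show (z : Matrix (Fin 2) (Fin 2) ℂ).map (starRingEnd ℂ) = (z : Matrix (Fin 2) (Fin 2) ℂ)
  rw [h]
  ext i j
  by_cases hij : i = j
  · subst hij
    simp [Matrix.map_apply, Matrix.diagonal_apply_eq]
  · simp [Matrix.map_apply, Matrix.diagonal_apply_ne _ hij]

theorem IsScal873.mul {z z' : GL (Fin 2) ℂ} {c c' : ℝ} (h : IsScal873 z c)
    (h' : IsScal873 z' c') : IsScal873 (z * z') (c * c') := by
  show (z : Matrix (Fin 2) (Fin 2) ℂ) * (z' : Matrix (Fin 2) (Fin 2) ℂ) = _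
  rw [h, h', Matrix.diagonal_mul_diagonal]
  congr 1
  funext _
  push_cast
  rfl

theorem IsScal873.prodTo {z : ℕ → GL (Fin 2) ℂ} {c : ℕ → ℝ}
    (h : ∀ j : ℕ, IsScal873 (z j) (c j)) (k : ℕ) :
    IsScal873 (prodTo873 z k) (∏ j ∈ Finset.range (k + 1), c j) := by
  induction k with
  | zero =>
    rw [Finset.prod_range_one]
    exact h 0
  | succ k ih =>
    rw [Finset.prod_range_succ _ (k + 1)]
    exact ih.mul (h (k + 1))

theorem IsScal873.eq_of {z z' : GL (Fin 2) ℂ} {c c' : ℝ} (h : IsScal873 z c)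
    (h' : IsScal873 z' c') (hc : c = c') : z = z' := by
  apply Units.ext
  rw [h, h', hc]

/-- The translates of a component at infinity with the properties `arch_up`. -/
theorem arch_trC873 {z : GL (Fin 2) ℂ} {c : ℝ} (hz : IsScal873 z c) {Φ : GL (Fin 2) ℂ → ℂ}
    (h : Continuous Φ ∧ HasCompactSupport Φ ∧ ∀ g : GL (Fin 2) ℂ, Φ (conjGL305 g) = Φ g) :
    Continuous (trC873 z Φ) ∧ HasCompactSupport (trC873 z Φ) ∧
      ∀ g : GL (Fin 2) ℂ, trC873 z Φ (conjGL305 g) = trC873 z Φ g := by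
  refine ⟨continuous_trC873 z h.1, hasCompactSupport_trC873 z h.2.1, fun g => ?_⟩
  show Φ (conjGL305 g * z⁻¹) = Φ (g * z⁻¹)
  rw [← h.2.2 (g * z⁻¹), map_mul, map_inv, hz.conj]

/-- The translates are bi-invariant under `U(2)`. -/
theorem u2_trC873 {z : GL (Fin 2) ℂ} {c : ℝ} (hz : IsScal873 z c) {Φ : GL (Fin 2) ℂ → ℂ}
    (k₁ k₂ g : GL (Fin 2) ℂ) (h : Φ (k₁ * (g * z⁻¹) * k₂) = Φ (g * z⁻¹)) :
    trC873 z Φ (k₁ * g * k₂) = trC873 z Φ g := by
  show Φ (k₁ * g * k₂ * z⁻¹) = Φ (g * z⁻¹)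
  rw [← h]
  congr 1
  rw [mul_assoc (k₁ * g), ← hz.central_inv k₂]
  group

theorem eqns_realised_natShapeArch873 : True := by
  have _h0 := @trC873.eq_1
  have _h1 := @trC873.eq_def
  have _h2 := @trC873.eq_unfold
  have _h6 := @prodTo873.eq_1
  have _h7 := @prodTo873.eq_2
  have _h8 := @prodTo873.eq_def
  have _h9 := @prodTo873.eq_unfold
  have _h3 := @IsScal873.eq_1
  have _h4 := @IsScal873.eq_def
  have _h5 := @IsScal873.eq_unfold
  trivial

end Fermat.Agent.LT.T7.H873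

end
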