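import Mathlib
import Fermat.Agent.LT.T7.H873.NatShapeArch

/-!
# Row LT, tower T7, node T7.L2.1.H2a.B (cut of helper57): leaf PB.3 `NatShapeC57`,
# the PURE TENSORS (helper873)

OFF-MAIN.  The right translate of a pure tensor by an element which is trivial at the finite
places is the pure tensor with the translated components at infinity; the right translate of a
test function by a central element which is trivial at the finite places is a test function; the
fibres of the infinite places in a Galois extension of degree `ℓ` have at most `ℓ` elements.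
-/

set_option autoImplicit false

open AutomorphicForm IsDedekindDomain NumberField MeasureTheory
open scoped Matrix

noncomputable section

namespace Fermat.Agent.LT.T7.H873

open Fermat.Agent.LT.H556 Fermat.Agent.LT.H556.A0 Fermat.Agent.LT Fermat.Agent.LT.T7
open Fermat.Agent.LT.T7.H305 Fermat.Agent.LT.T7.H893

section OneField

variable {K : Type} [Field K] [NumberField K]

theorem coe_finGL873 (v : HeightOneSpectrum (𝓞 K)) (h : G K) :
    ((finGL305 v h : GL (Fin 2) (v.adicCompletion K)) :
      Matrix (Fin 2) (Fin 2) (v.adicCompletion K)) = finComp v h := rfl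

theorem coe_infGL873 (w : InfinitePlace K) (h : G K) :
    ((infGL305 w h : GL (Fin 2) ℂ) : Matrix (Fin 2) (Fin 2) ℂ) = infComp w h := rfl

theorem finGL_of_triv873 {v : HeightOneSpectrum (𝓞 K)} {z : G K} (hz : TrivAtFin v z) :
    finGL305 v z = 1 := by
  apply Units.ext
  rw [coe_finGL873]
  exact hz

theorem finGL_mul_inv873 {z : G K} (hz : ∀ v : HeightOneSpectrum (𝓞 K), TrivAtFin v z)
    (v : HeightOneSpectrum (𝓞 K)) (h : G K) : finGL305 v (h * z⁻¹) = finGL305 v h := by
  rw [map_mul, map_inv, finGL_of_triv873 (hz v), inv_one, mul_one]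

theorem finComp_mul_inv873 {z : G K} (hz : ∀ v : HeightOneSpectrum (𝓞 K), TrivAtFin v z)
    (v : HeightOneSpectrum (𝓞 K)) (h : G K) : finComp v (h * z⁻¹) = finComp v h := by
  rw [← coe_finGL873, ← coe_finGL873, finGL_mul_inv873 hz]

theorem finComp_inv_mul_inv873 {z : G K} (hz : ∀ v : HeightOneSpectrum (𝓞 K), TrivAtFin v z)
    (v : HeightOneSpectrum (𝓞 K)) (h : G K) : finComp v (h * z⁻¹)⁻¹ = finComp v h⁻¹ := by
  rw [← coe_finGL873, ← coe_finGL873, map_inv, map_inv, finGL_mul_inv873 hz]

theorem outT_mul_inv873 {z : G K} (hz : ∀ v : HeightOneSpectrum (𝓞 K), TrivAtFin v z)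
    (T : Finset (HeightOneSpectrum (𝓞 K))) (h : G K) :
    OutT305 T (h * z⁻¹) ↔ OutT305 T h := by
  constructor
  · intro H v hv
    obtain ⟨h1, h2⟩ := H v hv
    refine ⟨fun i j => ?_, fun i j => ?_⟩
    · have := h1 i j
      rwa [finComp_mul_inv873 hz] at this
    · have := h2 i j
      rwa [finComp_inv_mul_inv873 hz] at this
  · intro H v hv
    obtain ⟨h1, h2⟩ := H v hv
    refine ⟨fun i j => ?_, fun i j => ?_⟩
    · rw [finComp_mul_inv873 hz]
      exact h1 i j
    · rw [finComp_inv_mul_inv873 hz]
      exact h2 i j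

open Classical in
/-- **The right translate of a pure tensor** by an element which is trivial at the finite places
is the pure tensor with the translated components at infinity. -/
theorem pure_trl873 {z : G K} (hz : ∀ v : HeightOneSpectrum (𝓞 K), TrivAtFin v z)
    (T : Finset (HeightOneSpectrum (𝓞 K)))
    (f₀ : ∀ v : HeightOneSpectrum (𝓞 K), GL (Fin 2) (v.adicCompletion K) → ℂ)
    (F : InfinitePlace K → GL (Fin 2) ℂ → ℂ) (h : G K) :
    pure305 T f₀ (fun w => trC873 (infGL305 w z) (F w)) h = pure305 T f₀ F (h * z⁻¹) := by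
  show (if OutT305 T h then
      (∏ v ∈ T, f₀ v (finGL305 v h)) * ∏ w : InfinitePlace K, F w (infGL305 w h * (infGL305 w z)⁻¹)
    else 0)
    = if OutT305 T (h * z⁻¹) then
      (∏ v ∈ T, f₀ v (finGL305 v (h * z⁻¹))) * ∏ w : InfinitePlace K, F w (infGL305 w (h * z⁻¹))
    else 0
  by_cases hO : OutT305 T h
  · rw [if_pos hO, if_pos ((outT_mul_inv873 hz T h).2 hO)]
    congr 1
    · refine Finset.prod_congr rfl fun v _ => ?_
      rw [finGL_mul_inv873 hz]
    · refine Finset.prod_congr rfl fun w _ => ?_
      rw [map_mul, map_inv]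
  · rw [if_neg hO, if_neg fun H => hO ((outT_mul_inv873 hz T h).1 H)]

/-- The right translate of a test function by a central element is a test function. -/
theorem isTestFn_trl873 {𝔫 : Ideal (𝓞 K)} {z : G K} (hc : ∀ g : G K, z * g = g * z)
    {φ : G K → ℂ} (h : T5.IsTestFn 𝔫 T5.trivType φ) :
    T5.IsTestFn 𝔫 T5.trivType (fun g => φ (g * z⁻¹)) := by
  have hci : ∀ g : G K, z⁻¹ * g = g * z⁻¹ := by
    intro g
    calc z⁻¹ * g = z⁻¹ * (g * z) * z⁻¹ := by group
      _ = z⁻¹ * (z * g) * z⁻¹ := by rw [hc g]
      _ = g * z⁻¹ := by group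
  refine ⟨h.ktype, h.cont.comp (continuous_id.mul continuous_const),
    h.supp.comp_homeomorph (Homeomorph.mulRight z⁻¹), ?_, ⟨?_, ?_, ?_, ?_⟩⟩
  · intro n hh h1 h2 g
    have := h.smooth n hh h1 h2 (g * z⁻¹)
    have e : (fun t => φ (g * hh t * z⁻¹)) = fun t => φ (g * z⁻¹ * hh t) := by
      funext t
      rw [mul_assoc g, ← hci (hh t), ← mul_assoc]
    show ContDiff ℝ _ (fun t => φ (g * hh t * z⁻¹))
    rw [e]
    exact this
  · intro u hu g
    show φ (g * u * z⁻¹) = φ (g * z⁻¹)
    rw [mul_assoc g, ← hci u, ← mul_assoc]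
    exact h.inv.level_right u hu _
  · intro u hu g
    show φ (u * g * z⁻¹) = φ (g * z⁻¹)
    rw [mul_assoc]
    exact h.inv.level_left u hu _
  · intro w k hk g
    show φ (g * k * z⁻¹) = _ * φ (g * z⁻¹)
    rw [mul_assoc g, ← hci k, ← mul_assoc]
    exact h.inv.arch_right w k hk _
  · intro w k hk g
    show φ (k * g * z⁻¹) = _ * φ (g * z⁻¹)
    rw [mul_assoc]
    exact h.inv.arch_left w k hk _

/-- The components at infinity of the positive scalars of torus data are real scalar matrices. -/
theorem isScal_infGL873 {𝔑 : Ideal (𝓞 K)} {r : G K} {a : (InfinitePlace K → ℝ) → G K}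
    {D : Set (InfinitePlace K → ℝ)} (hD : H193.IsTorusData 𝔑 r a D)
    (t : InfinitePlace K → ℝ) (w : InfinitePlace K) :
    IsScal873 (infGL305 w (a t)) (Real.exp (t w)) := by
  show ((infGL305 w (a t) : GL (Fin 2) ℂ) : Matrix (Fin 2) (Fin 2) ℂ) = _
  rw [coe_infGL873]
  exact hD.inf t w

end OneField

section Fibre

variable {K K' : Type} [Field K] [NumberField K] [Field K'] [NumberField K'] [Algebra K K']

open Classical in
/-- In a Galois extension of degree `ℓ` the fibres of the infinite places have at most `ℓ`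
elements. -/
theorem card_fibre_le873 {ℓ : ℕ} (hcyc : IsCycExt K K' ℓ) (v : InfinitePlace K) :
    (Finset.univ.filter fun w : InfinitePlace K' => w.comap (algebraMap K K') = v).card ≤ ℓ := by
  have := hcyc.galois
  have hfin : FiniteDimensional K K' := by
    apply FiniteDimensional.of_finrank_pos
    rw [hcyc.degree]
    exact hcyc.prime.pos
  by_cases hne : (Finset.univ.filter fun w : InfinitePlace K' =>
      w.comap (algebraMap K K') = v).Nonempty
  · obtain ⟨w₀, hw₀⟩ := hne
    have hw₀' : w₀.comap (algebraMap K K') = v := (Finset.mem_filter.1 hw₀).2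
    have hsub : (Finset.univ.filter fun w : InfinitePlace K' => w.comap (algebraMap K K') = v)
        ⊆ Finset.univ.image fun σ : K' ≃ₐ[K] K' => σ • w₀ := by
      intro w hw
      have hw' : w.comap (algebraMap K K') = v := (Finset.mem_filter.1 hw).2
      have : w ∈ MulAction.orbit (K' ≃ₐ[K] K') w₀ :=
        InfinitePlace.mem_orbit_iff.2 (hw₀'.trans hw'.symm)
      obtain ⟨σ, hσ⟩ := this
      exact Finset.mem_image.2 ⟨σ, Finset.mem_univ _, hσ⟩
    calc _ ≤ (Finset.univ.image fun σ : K' ≃ₐ[K] K' => σ • w₀).card := Finset.card_le_card hsub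
      _ ≤ (Finset.univ : Finset (K' ≃ₐ[K] K')).card := Finset.card_image_le
      _ = Nat.card (K' ≃ₐ[K] K') := by rw [Finset.card_univ, Nat.card_eq_fintype_card]
      _ = Module.finrank K K' := IsGalois.card_aut_eq_finrank K K'
      _ = ℓ := hcyc.degree
  · rw [Finset.not_nonempty_iff_eq_empty] at hne
    rw [hne, Finset.card_empty]
    exact Nat.zero_le _

open Classical in
/-- The sum over the fibre is the sum along an enumeration of the fibre. -/
theorem fibSum_eq873 {ℓ : ℕ} (hcyc : IsCycExt K K' ℓ) (v : InfinitePlace K)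
    (w : ℕ → InfinitePlace K') (hw : ∀ j : ℕ, (w j).comap (algebraMap K K') = v)
    (hinj : ∀ j j' : ℕ, j < ℓ → j' < ℓ → w j = w j' → j = j') (t' : InfinitePlace K' → ℝ) :
    H193.fibSum193 (K := K) t' v = ∑ j ∈ Finset.range ℓ, t' (w j) := by
  have hinj' : Set.InjOn w (Finset.range ℓ : Set ℕ) := by
    intro j hj j' hj' e
    exact hinj j j' (Finset.mem_range.1 hj) (Finset.mem_range.1 hj') e
  have hsub : (Finset.range ℓ).image w
      ⊆ Finset.univ.filter fun w : InfinitePlace K' => w.comap (algebraMap K K') = v := by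
    intro x hx
    obtain ⟨j, _, rfl⟩ := Finset.mem_image.1 hx
    exact Finset.mem_filter.2 ⟨Finset.mem_univ _, hw j⟩
  have hcard : ((Finset.range ℓ).image w).card = ℓ := by
    rw [Finset.card_image_of_injOn hinj', Finset.card_range]
  have heq : (Finset.range ℓ).image w
      = Finset.univ.filter fun w : InfinitePlace K' => w.comap (algebraMap K K') = v :=
    Finset.eq_of_subset_of_card_le hsub (by rw [hcard]; exact card_fibre_le873 hcyc v)
  show (∑ w : InfinitePlace K', if w.comap (algebraMap K K') = v then t' w else 0) = _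
  rw [← Finset.sum_filter, ← heq, Finset.sum_image hinj']

end Fibre

end Fermat.Agent.LT.T7.H873

end
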