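import Mathlib
import Fermat.Agent.LT.T7.H873.NatShapePure

/-!
# Row LT, tower T7, node T7.L2.1.H2a.B (cut of helper57): leaf PB.3 `NatShapeC57`,
# the LOCAL CONDITIONS (helper873)

OFF-MAIN.  The local hypotheses `H305.LocHyp305`, `H893.LocHyp893`, `H893.ArchOk893` and the
local shapes of record `H893.LocB893b`, `H893.LocB893` are stable under the translations of the
components at infinity by real scalar matrices `z' w` upstairs and `z v` downstairs with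
`z v = ∏_{w ∣ v} z' w`.
-/

set_option autoImplicit false

open AutomorphicForm IsDedekindDomain NumberField MeasureTheory
open scoped Matrix

noncomputable section

namespace Fermat.Agent.LT.T7.H873

open Fermat.Agent.LT.H556 Fermat.Agent.LT.H556.A0 Fermat.Agent.LT Fermat.Agent.LT.T7
open Fermat.Agent.LT.T7.H305 Fermat.Agent.LT.T7.H893

variable {K K' : Type} [Field K] [NumberField K] [Field K'] [NumberField K'] [Algebra K K']

/-- The scalars downstairs are the products of the scalars upstairs over the fibres. -/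
def IsFibProd873 (l : ℕ) (c' : InfinitePlace K' → ℝ) (c : InfinitePlace K → ℝ) : Prop :=
  ∀ (v : InfinitePlace K) (w : ℕ → InfinitePlace K'),
    (∀ j : ℕ, (w j).comap (algebraMap K K') = v) →
    (∀ j j' : ℕ, j < l → j' < l → w j = w j' → j = j') →
    c v = ∏ j ∈ Finset.range l, c' (w j)

/-- The clause `arch` for the translated components. -/
theorem arch_clause873 {l : ℕ} (hl : 0 < l) {μc : @Measure (GL (Fin 2) ℂ) (borel _)}
    (hμ : @Measure.IsHaarMeasure _ _ _ (borel _) μc)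
    {Φ : InfinitePlace K' → GL (Fin 2) ℂ → ℂ} {F : InfinitePlace K → GL (Fin 2) ℂ → ℂ}
    {z' : InfinitePlace K' → GL (Fin 2) ℂ} {c' : InfinitePlace K' → ℝ}
    (hz' : ∀ w, IsScal873 (z' w) (c' w))
    {z : InfinitePlace K → GL (Fin 2) ℂ} {c : InfinitePlace K → ℝ}
    (hz : ∀ v, IsScal873 (z v) (c v)) (hprod : IsFibProd873 l c' c)
    (harch : ∀ (v : InfinitePlace K) (w : ℕ → InfinitePlace K'),
      (∀ j : ℕ, (w j).comap (algebraMap K K') = v) →
      (∀ j j' : ℕ, j < l → j' < l → w j = w j' → j = j') →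
      F v = convL305 μc (fun j => Φ (w j)) (l - 1))
    (v : InfinitePlace K) (w : ℕ → InfinitePlace K')
    (h1 : ∀ j : ℕ, (w j).comap (algebraMap K K') = v)
    (h2 : ∀ j j' : ℕ, j < l → j' < l → w j = w j' → j = j') :
    trC873 (z v) (F v) = convL305 μc (fun j => trC873 (z' (w j)) (Φ (w j))) (l - 1) := by
  rw [convL_trC873 μc hμ (fun j => z' (w j)) (fun j x => (hz' (w j)).central x)
    (fun j => Φ (w j)) (l - 1), ← harch v w h1 h2]
  congr 1
  refine (hz v).eq_of (IsScal873.prodTo (c := fun j => c' (w j)) (fun j => hz' (w j)) (l - 1)) ?_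
  rw [Nat.sub_add_cancel hl]
  exact hprod v w h1 h2

/-- `H893.LocHyp893` for the translated components at infinity. -/
theorem locHyp893_trl873 {D : CompData K K'} (hl : 0 < D.l)
    {μc : @Measure (GL (Fin 2) ℂ) (borel _)}
    (hμ : @Measure.IsHaarMeasure _ _ _ (borel _) μc)
    {T : Finset (HeightOneSpectrum (𝓞 K))}
    {n : HeightOneSpectrum (𝓞 K') → ℕ} {m : HeightOneSpectrum (𝓞 K) → ℕ}
    {φ₀ : ∀ w : HeightOneSpectrum (𝓞 K'), GL (Fin 2) (w.adicCompletion K') → ℂ}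
    {Φ : InfinitePlace K' → GL (Fin 2) ℂ → ℂ}
    {f₀ : ∀ v : HeightOneSpectrum (𝓞 K), GL (Fin 2) (v.adicCompletion K) → ℂ}
    {F : InfinitePlace K → GL (Fin 2) ℂ → ℂ}
    {z' : InfinitePlace K' → GL (Fin 2) ℂ} {c' : InfinitePlace K' → ℝ}
    (hz' : ∀ w, IsScal873 (z' w) (c' w))
    {z : InfinitePlace K → GL (Fin 2) ℂ} {c : InfinitePlace K → ℝ}
    (hz : ∀ v, IsScal873 (z v) (c v)) (hprod : IsFibProd873 D.l c' c)
    (h : LocHyp893 D μc T n m φ₀ Φ f₀ F) :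
    LocHyp893 D μc T n m φ₀ (fun w => trC873 (z' w) (Φ w)) f₀ (fun v => trC873 (z v) (F v)) where
  inv_up := h.inv_up
  inv_down := h.inv_down
  arch_up := fun w => arch_trC873 (hz' w) (h.arch_up w)
  arch_down := fun v => arch_trC873 (hz v) (h.arch_down v)
  inert := h.inert
  split := h.split
  arch := fun v w h1 h2 => arch_clause873 hl hμ hz' hz hprod h.arch v w h1 h2

/-- `H305.LocHyp305` for the translated components at infinity. -/
theorem locHyp305_trl873 {D : CompData K K'} (hl : 0 < D.l)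
    {μc : @Measure (GL (Fin 2) ℂ) (borel _)}
    (hμ : @Measure.IsHaarMeasure _ _ _ (borel _) μc)
    {T : Finset (HeightOneSpectrum (𝓞 K))}
    {n : HeightOneSpectrum (𝓞 K') → ℕ} {m : HeightOneSpectrum (𝓞 K) → ℕ}
    {φ₀ : ∀ w : HeightOneSpectrum (𝓞 K'), GL (Fin 2) (w.adicCompletion K') → ℂ}
    {Φ : InfinitePlace K' → GL (Fin 2) ℂ → ℂ}
    {f₀ : ∀ v : HeightOneSpectrum (𝓞 K), GL (Fin 2) (v.adicCompletion K) → ℂ}
    {F : InfinitePlace K → GL (Fin 2) ℂ → ℂ}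
    {z' : InfinitePlace K' → GL (Fin 2) ℂ} {c' : InfinitePlace K' → ℝ}
    (hz' : ∀ w, IsScal873 (z' w) (c' w))
    {z : InfinitePlace K → GL (Fin 2) ℂ} {c : InfinitePlace K → ℝ}
    (hz : ∀ v, IsScal873 (z v) (c v)) (hprod : IsFibProd873 D.l c' c)
    (h : LocHyp305 D μc T n m φ₀ Φ f₀ F) :
    LocHyp305 D μc T n m φ₀ (fun w => trC873 (z' w) (Φ w)) f₀ (fun v => trC873 (z v) (F v)) where
  inv_up := h.inv_up
  inv_down := h.inv_down
  arch_up := fun w => arch_trC873 (hz' w) (h.arch_up w)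
  arch_down := fun v => arch_trC873 (hz v) (h.arch_down v)
  inert := h.inert
  split := h.split
  arch := fun v w h1 h2 => arch_clause873 hl hμ hz' hz hprod h.arch v w h1 h2

/-- `H893.ArchOk893` for the translated components at infinity. -/
theorem archOk_trl873 {D : CompData K K'} (hl : 0 < D.l)
    {μc : @Measure (GL (Fin 2) ℂ) (borel _)}
    (hμ : @Measure.IsHaarMeasure _ _ _ (borel _) μc)
    {n : HeightOneSpectrum (𝓞 K') → ℕ} {m : HeightOneSpectrum (𝓞 K) → ℕ}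
    {φ₀ : ∀ w : HeightOneSpectrum (𝓞 K'), GL (Fin 2) (w.adicCompletion K') → ℂ}
    {Φ : InfinitePlace K' → GL (Fin 2) ℂ → ℂ}
    {f₀ : ∀ v : HeightOneSpectrum (𝓞 K), GL (Fin 2) (v.adicCompletion K) → ℂ}
    {F : InfinitePlace K → GL (Fin 2) ℂ → ℂ}
    {z' : InfinitePlace K' → GL (Fin 2) ℂ} {c' : InfinitePlace K' → ℝ}
    (hz' : ∀ w, IsScal873 (z' w) (c' w))
    {z : InfinitePlace K → GL (Fin 2) ℂ} {c : InfinitePlace K → ℝ}
    (hz : ∀ v, IsScal873 (z v) (c v)) (hprod : IsFibProd873 D.l c' c)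
    (h : ArchOk893 D μc n m φ₀ Φ f₀ F) :
    ArchOk893 D μc n m φ₀ (fun w => trC873 (z' w) (Φ w)) f₀ (fun v => trC873 (z v) (F v)) := by
  obtain ⟨h1, h2, h3⟩ := h
  refine ⟨locHyp305_trl873 hl hμ hz' hz hprod h1, ?_, ?_⟩
  · intro w k₁ k₂ g hk₁ hk₂
    exact u2_trC873 (hz' w) k₁ k₂ g (h2 w k₁ k₂ (g * (z' w)⁻¹) hk₁ hk₂)
  · intro v k₁ k₂ g hk₁ hk₂
    exact u2_trC873 (hz v) k₁ k₂ g (h3 v k₁ k₂ (g * (z v)⁻¹) hk₁ hk₂)

/-- **The local shape of record (v2)** is stable under the translations at infinity. -/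
theorem locB893b_trl873 {B : L2Base K K'} (hl : 0 < B.l) {g : G K'} {𝔫 : Ideal (𝓞 K)}
    {μc : @Measure (GL (Fin 2) ℂ) (borel _)}
    (hμ : @Measure.IsHaarMeasure _ _ _ (borel _) μc)
    {T₀ : Finset (HeightOneSpectrum (𝓞 K))}
    {n n₀ : HeightOneSpectrum (𝓞 K') → ℕ} {m : HeightOneSpectrum (𝓞 K) → ℕ}
    {T : Finset (HeightOneSpectrum (𝓞 K))}
    {φ₀ : ∀ w : HeightOneSpectrum (𝓞 K'), GL (Fin 2) (w.adicCompletion K') → ℂ}
    {Φ : InfinitePlace K' → GL (Fin 2) ℂ → ℂ}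
    {f₀ : ∀ v : HeightOneSpectrum (𝓞 K), GL (Fin 2) (v.adicCompletion K) → ℂ}
    {F : InfinitePlace K → GL (Fin 2) ℂ → ℂ}
    {z' : InfinitePlace K' → GL (Fin 2) ℂ} {c' : InfinitePlace K' → ℝ}
    (hz' : ∀ w, IsScal873 (z' w) (c' w))
    {z : InfinitePlace K → GL (Fin 2) ℂ} {c : InfinitePlace K → ℝ}
    (hz : ∀ v, IsScal873 (z v) (c v)) (hprod : IsFibProd873 B.l c' c)
    (h : LocB893b B g 𝔫 μc T₀ n n₀ m T φ₀ Φ f₀ F) :
    LocB893b B g 𝔫 μc T₀ n n₀ m T φ₀ (fun w => trC873 (z' w) (Φ w)) f₀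
      (fun v => trC873 (z v) (F v)) := by
  obtain ⟨h1, h2, h3, h4, h5, h6⟩ := h
  exact ⟨locHyp893_trl873 (D := B.comp 𝔫) hl hμ hz' hz hprod h1, h2, h3, h4, h5,
    archOk_trl873 (D := B.comp 𝔫) hl hμ hz' hz hprod h6⟩

/-- **The local shape of record (v1)** is stable under the translations at infinity. -/
theorem locB893_trl873 {B : L2Base K K'} (hl : 0 < B.l) {g : G K'} {𝔫 : Ideal (𝓞 K)}
    {μc : @Measure (GL (Fin 2) ℂ) (borel _)}
    (hμ : @Measure.IsHaarMeasure _ _ _ (borel _) μc)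
    {T₀ : Finset (HeightOneSpectrum (𝓞 K))}
    {n n₀ : HeightOneSpectrum (𝓞 K') → ℕ} {m : HeightOneSpectrum (𝓞 K) → ℕ}
    {T : Finset (HeightOneSpectrum (𝓞 K))}
    {φ₀ : ∀ w : HeightOneSpectrum (𝓞 K'), GL (Fin 2) (w.adicCompletion K') → ℂ}
    {Φ : InfinitePlace K' → GL (Fin 2) ℂ → ℂ}
    {f₀ : ∀ v : HeightOneSpectrum (𝓞 K), GL (Fin 2) (v.adicCompletion K) → ℂ}
    {F : InfinitePlace K → GL (Fin 2) ℂ → ℂ}
    {z' : InfinitePlace K' → GL (Fin 2) ℂ} {c' : InfinitePlace K' → ℝ}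
    (hz' : ∀ w, IsScal873 (z' w) (c' w))
    {z : InfinitePlace K → GL (Fin 2) ℂ} {c : InfinitePlace K → ℝ}
    (hz : ∀ v, IsScal873 (z v) (c v)) (hprod : IsFibProd873 B.l c' c)
    (h : LocB893 B g 𝔫 μc T₀ n n₀ m T φ₀ Φ f₀ F) :
    LocB893 B g 𝔫 μc T₀ n n₀ m T φ₀ (fun w => trC873 (z' w) (Φ w)) f₀
      (fun v => trC873 (z v) (F v)) := by
  obtain ⟨h1, h2, h3, h4, h5, h6⟩ := h
  exact ⟨locHyp305_trl873 (D := B.comp 𝔫) hl hμ hz' hz hprod h1, h2, h3, h4, h5,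
    archOk_trl873 (D := B.comp 𝔫) hl hμ hz' hz hprod h6⟩

/-- The scalars of compatible torus data: `exp (N t')_v = ∏_{w ∣ v} exp t'_w`. -/
theorem isFibProd_exp873 {ℓ : ℕ} (hcyc : IsCycExt K K' ℓ) (t' : InfinitePlace K' → ℝ) :
    IsFibProd873 ℓ (fun w => Real.exp (t' w))
      (fun v => Real.exp (H193.fibSum193 (K := K) t' v)) := by
  intro v w h1 h2
  show Real.exp (H193.fibSum193 (K := K) t' v) = ∏ j ∈ Finset.range ℓ, Real.exp (t' (w j))
  rw [fibSum_eq873 hcyc v w h1 h2 t', Real.exp_sum]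

theorem eqns_realised_natShapeLoc873 : True := by
  have _h0 := @IsFibProd873.eq_1
  have _h1 := @IsFibProd873.eq_def
  have _h2 := @IsFibProd873.eq_unfold
  trivial

end Fermat.Agent.LT.T7.H873

end
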