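import Mathlib
import Fermat.Agent.LT.T7.H873.NatShapeLoc

/-!
# Row LT, tower T7, node T7.L2.1.H2a.B (cut of helper57): leaf PB.3 `NatShapeC57`,
# THE TORUS MEANS OF AN AVERAGE OF PURE TENSORS (helper873)

OFF-MAIN.  `isAvgPure_nat873`: for compatible torus data and a local condition `L` which is
stable under the translations of the components at infinity by the positive scalars of the torus
data, the torus means of an average of pure tensors with the local condition `L` are an average
of pure tensors with the local condition `L` (parameter space `Ω × closure D'`, measure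
`ν × vol(D')⁻¹ vol|_{D'}`; Fubini; downstairs the push-forward formula `H193.nat_eq_push193`).
-/

set_option autoImplicit false

open AutomorphicForm IsDedekindDomain NumberField MeasureTheory
open scoped Matrix

noncomputable section

namespace Fermat.Agent.LT.T7.H873

open Fermat.Agent.LT.H556 Fermat.Agent.LT.H556.A0 Fermat.Agent.LT Fermat.Agent.LT.T7
open Fermat.Agent.LT.T7.H305 Fermat.Agent.LT.T7.H893

attribute [local instance] Fermat.Agent.LT.T5.instMeasurableSpaceG

section Param

variable {ι : Type} [Fintype ι]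

/-- The normalised Lebesgue measure of `D`, as a measure on the compact space `closure D`. -/
def normMeas873 (D : Set (ι → ℝ)) : Measure (closure D) :=
  Measure.comap Subtype.val ((ENNReal.ofReal ((volume D).toReal)⁻¹) • volume.restrict D)

theorem isFiniteMeasure_normMeas873 {D : Set (ι → ℝ)} (hD : Bornology.IsBounded D) :
    IsFiniteMeasure (normMeas873 D) := by
  have h1 : IsFiniteMeasure (volume.restrict D) :=
    ⟨by rw [Measure.restrict_apply_univ]; exact hD.measure_lt_top⟩
  have h2 : IsFiniteMeasure ((ENNReal.ofReal ((volume D).toReal)⁻¹) • volume.restrict D) :=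
    Measure.smul_finite _ ENNReal.ofReal_ne_top
  refine ⟨?_⟩
  show Measure.comap Subtype.val _ Set.univ < ⊤
  rw [(MeasurableEmbedding.subtype_coe measurableSet_closure).comap_apply]
  exact lt_of_le_of_lt (measure_mono (Set.subset_univ _)) (measure_lt_top _ _)

/-- The integral for the normalised measure. -/
theorem integral_normMeas873 (D : Set (ι → ℝ)) (g : (ι → ℝ) → ℂ) :
    ∫ t : closure D, g t ∂(normMeas873 D)
      = (((volume D).toReal : ℝ) : ℂ)⁻¹ * ∫ t in D, g t := by
  show ∫ t : closure D, g t ∂(Measure.comap Subtype.val _) = _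
  rw [integral_subtype_comap measurableSet_closure g, Measure.restrict_smul,
    Measure.restrict_restrict measurableSet_closure,
    Set.inter_eq_self_of_subset_right subset_closure, integral_smul_measure,
    ENNReal.toReal_ofReal (inv_nonneg.2 ENNReal.toReal_nonneg), Complex.real_smul,
    Complex.ofReal_inv]

end Param

section Main

variable {K K' : Type} [Field K] [NumberField K] [Field K'] [NumberField K'] [Algebra K K']

open Classical in
theorem continuous_fibSum873 :
    Continuous (H193.fibSum193 (K := K) (K' := K')) := by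
  show Continuous fun (t' : InfinitePlace K' → ℝ) (v : InfinitePlace K) =>
    ∑ w : InfinitePlace K', if w.comap (algebraMap K K') = v then t' w else 0
  refine continuous_pi fun v => continuous_finsetSum _ fun w _ => ?_
  by_cases hw : w.comap (algebraMap K K') = v
  · simp only [if_pos hw]
    exact continuous_apply w
  · simp only [if_neg hw]
    exact continuous_const

/-- The integral over the product parameter space. -/
theorem integral_param873 {Ω : Type} [TopologicalSpace Ω] [CompactSpace Ω]
    [SecondCountableTopology Ω] [MeasurableSpace Ω] [BorelSpace Ω] (ν : Measure Ω)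
    [IsFiniteMeasure ν] {ι : Type} [Fintype ι] {D : Set (ι → ℝ)}
    (hD : Bornology.IsBounded D) {X : Type} [TopologicalSpace X]
    (P : Ω × X → ℂ) (hP : Continuous P) (b : (ι → ℝ) → X) (hb : Continuous b)
    (φ : X → ℂ) (hφ : ∀ x : X, φ x = ∫ ω, P (ω, x) ∂ν) :
    haveI := isFiniteMeasure_normMeas873 hD
    ∫ p : Ω × closure D, P (p.1, b p.2) ∂(ν.prod (normMeas873 D))
      = (((volume D).toReal : ℝ) : ℂ)⁻¹ * ∫ t in D, φ (b t) := by
  have := isFiniteMeasure_normMeas873 hD
  have : CompactSpace (closure D) := isCompact_iff_compactSpace.1 hD.isCompact_closure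
  have hQ : Continuous fun p : Ω × closure D => P (p.1, b p.2) :=
    hP.comp (continuous_fst.prodMk (hb.comp (continuous_subtype_val.comp continuous_snd)))
  have hint : Integrable (fun p : Ω × closure D => P (p.1, b p.2)) (ν.prod (normMeas873 D)) :=
    hQ.integrable_of_hasCompactSupport (HasCompactSupport.of_compactSpace _)
  rw [integral_prod_symm _ hint]
  have e : (fun t : closure D => ∫ ω, P (ω, b t) ∂ν) = fun t : closure D => φ (b t) := by
    funext t
    exact (hφ (b t)).symm
  show ∫ t : closure D, ∫ ω, P (ω, b t) ∂ν ∂(normMeas873 D) = _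
  rw [e]
  exact integral_normMeas873 D fun t => φ (b t)

/-- **THE TORUS MEANS OF AN AVERAGE OF PURE TENSORS** (general form: any local condition which
is stable under the translations at infinity by the positive scalars of the torus data). -/
theorem isAvgPure_nat873 {𝔫 : Ideal (𝓞 K)} {r : G K} {r' : G K'}
    {aT : (InfinitePlace K → ℝ) → G K} {D : Set (InfinitePlace K → ℝ)}
    {aT' : (InfinitePlace K' → ℝ) → G K'} {D' : Set (InfinitePlace K' → ℝ)}
    (hrel : H193.IsRelTorus 𝔫 r r' aT D aT' D')
    {𝔑 : Ideal (𝓞 K')} {T₀ : Finset (HeightOneSpectrum (𝓞 K))} {L : LocCond K K'} {a : ℂ}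
    {φ₀ : G K' → ℂ} {f₀ : G K → ℂ} (hf : Continuous f₀)
    (hL : ∀ (t' : InfinitePlace K' → ℝ) (T : Finset (HeightOneSpectrum (𝓞 K)))
      (φ : ∀ w : HeightOneSpectrum (𝓞 K'), GL (Fin 2) (w.adicCompletion K') → ℂ)
      (Φ : InfinitePlace K' → GL (Fin 2) ℂ → ℂ)
      (f : ∀ v : HeightOneSpectrum (𝓞 K), GL (Fin 2) (v.adicCompletion K) → ℂ)
      (F : InfinitePlace K → GL (Fin 2) ℂ → ℂ), L T φ Φ f F →
      L T φ (fun w => trC873 (infGL305 w (aT' t')) (Φ w)) f
        (fun v => trC873 (infGL305 v (aT (H193.fibSum193 (K := K) t'))) (F v)))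
    (h : IsAvgPure 𝔑 𝔫 T₀ L a φ₀ f₀) :
    IsAvgPure 𝔑 𝔫 T₀ L a (H193.nat193 aT' D' φ₀) (H193.nat193 aT D f₀) := by
  classical
  obtain ⟨Ω, iT, iC, iT2, iSC, iM, iB, ν, iF, T, T', φc, Φc, fc, Fc, h1, h2, h3, h4, h5,
    ⟨C', hC', hC'2⟩, ⟨C, hC, hC2⟩, h8, h9⟩ := h
  have hbdd : Bornology.IsBounded D' := hrel.up.bdd
  have hcomp : IsCompact (closure D') := hbdd.isCompact_closure
  have : CompactSpace (closure D') := isCompact_iff_compactSpace.1 hcomp
  have := isFiniteMeasure_normMeas873 hbdd
  have hfinU : ∀ (t : InfinitePlace K' → ℝ) (v : HeightOneSpectrum (𝓞 K')),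
      TrivAtFin v (aT' t) := hrel.up.fin
  have hfinD : ∀ (t : InfinitePlace K → ℝ) (v : HeightOneSpectrum (𝓞 K)),
      TrivAtFin v (aT t) := hrel.down.fin
  have hbD : Continuous fun t' : InfinitePlace K' → ℝ => aT (H193.fibSum193 (K := K) t') :=
    hrel.down.cont.comp continuous_fibSum873
  -- the members upstairs and downstairs are translates
  have eU : ∀ (ω : Ω) (t : InfinitePlace K' → ℝ) (x : G K'),
      pure305 (T' ω) (φc ω) (fun w => trC873 (infGL305 w (aT' t)) (Φc ω w)) x
        = pure305 (T' ω) (φc ω) (Φc ω) (x * (aT' t)⁻¹) := by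
    intro ω t x
    exact pure_trl873 (z := aT' t) (hfinU t) (T' ω) (φc ω) (Φc ω) x
  have eD : ∀ (ω : Ω) (t : InfinitePlace K' → ℝ) (x : G K),
      pure305 (T ω) (fc ω)
          (fun v => trC873 (infGL305 v (aT (H193.fibSum193 (K := K) t))) (Fc ω v)) x
        = pure305 (T ω) (fc ω) (Fc ω) (x * (aT (H193.fibSum193 (K := K) t))⁻¹) := by
    intro ω t x
    exact pure_trl873 (z := aT (H193.fibSum193 (K := K) t)) (hfinD _) (T ω) (fc ω) (Fc ω) x
  refine ⟨Ω × closure D', inferInstance, inferInstance, inferInstance, inferInstance,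
    inferInstance, inferInstance, ν.prod (normMeas873 D'), inferInstance,
    fun p => T p.1, fun p => T' p.1, fun p => φc p.1,
    fun p w => trC873 (infGL305 w (aT' p.2.1)) (Φc p.1 w), fun p => fc p.1,
    fun p v => trC873 (infGL305 v (aT (H193.fibSum193 (K := K) p.2.1))) (Fc p.1 v),
    ?_, ?_, ?_, ?_, ?_, ?_, ?_, ?_, ?_⟩
  · exact fun p => ⟨(h1 p.1).1, (h1 p.1).2.1, hL p.2.1 _ _ _ _ _ (h1 p.1).2.2⟩
  · intro p
    have e : pure305 (T' p.1) (φc p.1) (fun w => trC873 (infGL305 w (aT' p.2.1)) (Φc p.1 w))
        = fun x => pure305 (T' p.1) (φc p.1) (Φc p.1) (x * (aT' p.2.1)⁻¹) :=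
      funext (eU p.1 p.2.1)
    rw [e]
    exact isTestFn_trl873 (hrel.up.central p.2.1) (h2 p.1)
  · intro p
    have e : (fun x => a * pure305 (T p.1) (fc p.1)
          (fun v => trC873 (infGL305 v (aT (H193.fibSum193 (K := K) p.2.1))) (Fc p.1 v)) x)
        = fun x => (fun y => a * pure305 (T p.1) (fc p.1) (Fc p.1) y)
            (x * (aT (H193.fibSum193 (K := K) p.2.1))⁻¹) := by
      funext x
      rw [eD p.1 p.2.1 x]
    rw [e]
    exact isTestFn_trl873 (hrel.down.central _) (h3 p.1)
  · have e : (fun q : (Ω × closure D') × G K' =>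
          pure305 (T' q.1.1) (φc q.1.1)
            (fun w => trC873 (infGL305 w (aT' q.1.2.1)) (Φc q.1.1 w)) q.2)
        = fun q : (Ω × closure D') × G K' =>
          (fun p : Ω × G K' => pure305 (T' p.1) (φc p.1) (Φc p.1) p.2)
            (q.1.1, q.2 * (aT' q.1.2.1)⁻¹) := by
      funext q
      exact eU q.1.1 q.1.2.1 q.2
    rw [e]
    exact h4.comp ((continuous_fst.comp continuous_fst).prodMk
      (continuous_snd.mul (hrel.up.cont.comp
        (continuous_subtype_val.comp (continuous_snd.comp continuous_fst))).inv))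
  · have e : (fun q : (Ω × closure D') × G K =>
          a * pure305 (T q.1.1) (fc q.1.1)
            (fun v => trC873 (infGL305 v (aT (H193.fibSum193 (K := K) q.1.2.1)))
              (Fc q.1.1 v)) q.2)
        = fun q : (Ω × closure D') × G K =>
          (fun p : Ω × G K => a * pure305 (T p.1) (fc p.1) (Fc p.1) p.2)
            (q.1.1, q.2 * (aT (H193.fibSum193 (K := K) q.1.2.1))⁻¹) := by
      funext q
      show a * _ = a * _
      rw [eD q.1.1 q.1.2.1 q.2]
    rw [e]
    exact h5.comp ((continuous_fst.comp continuous_fst).prodMk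
      (continuous_snd.mul (hbD.comp
        (continuous_subtype_val.comp (continuous_snd.comp continuous_fst))).inv))
  · refine ⟨(fun p : G K' × (InfinitePlace K' → ℝ) => p.1 * aT' p.2) '' (C' ×ˢ closure D'),
      (hC'.prod hcomp).image (continuous_fst.mul (hrel.up.cont.comp continuous_snd)), ?_⟩
    intro p x hx
    rw [eU p.1 p.2.1 x] at hx
    exact ⟨(x * (aT' p.2.1)⁻¹, p.2.1), ⟨hC'2 p.1 _ hx, p.2.2⟩,
      inv_mul_cancel_right x _⟩
  · refine ⟨(fun p : G K × (InfinitePlace K' → ℝ) =>
        p.1 * aT (H193.fibSum193 (K := K) p.2)) '' (C ×ˢ closure D'),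
      (hC.prod hcomp).image (continuous_fst.mul (hbD.comp continuous_snd)), ?_⟩
    intro p x hx
    rw [eD p.1 p.2.1 x] at hx
    exact ⟨(x * (aT (H193.fibSum193 (K := K) p.2.1))⁻¹, p.2.1),
      ⟨hC2 p.1 _ hx, p.2.2⟩, inv_mul_cancel_right x _⟩
  · intro x
    have e : (fun p : Ω × closure D' =>
          pure305 (T' p.1) (φc p.1) (fun w => trC873 (infGL305 w (aT' p.2.1)) (Φc p.1 w)) x)
        = fun p : Ω × closure D' =>
          (fun q : Ω × G K' => pure305 (T' q.1) (φc q.1) (Φc q.1) q.2)
            (p.1, (fun t : InfinitePlace K' → ℝ => x * (aT' t)⁻¹) p.2.1) :=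
      funext fun p => eU p.1 p.2.1 x
    rw [e]
    exact (integral_param873 ν hbdd _ h4 (fun t : InfinitePlace K' → ℝ => x * (aT' t)⁻¹)
      (continuous_const.mul hrel.up.cont.inv) φ₀ h8).symm
  · intro x
    have e : (fun p : Ω × closure D' =>
          a * pure305 (T p.1) (fc p.1)
            (fun v => trC873 (infGL305 v (aT (H193.fibSum193 (K := K) p.2.1)))
              (Fc p.1 v)) x)
        = fun p : Ω × closure D' =>
          (fun q : Ω × G K => a * pure305 (T q.1) (fc q.1) (Fc q.1) q.2)
            (p.1, (fun t : InfinitePlace K' → ℝ =>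
              x * (aT (H193.fibSum193 (K := K) t))⁻¹) p.2.1) := by
      funext p
      show a * _ = a * _
      rw [eD p.1 p.2.1 x]
    rw [e, H193.nat_eq_push193 hrel hf x]
    exact (integral_param873 ν hbdd _ h5
      (fun t : InfinitePlace K' → ℝ => x * (aT (H193.fibSum193 (K := K) t))⁻¹)
      (continuous_const.mul hbD.inv) f₀ h9).symm

end Main

theorem eqns_realised_natShapeAvg873 : True := by
  have _h0 := @normMeas873.eq_1
  have _h1 := @normMeas873.eq_def
  have _h2 := @normMeas873.eq_unfold
  trivial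

end Fermat.Agent.LT.T7.H873

end
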