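import Mathlib
import Fermat.Agent.LT.T7.H973.PairBQSpec
import Fermat.Agent.LT.T7.H873.NatShapeArch

/-!
# Row LT, tower T7, node T7.L2Q.1.H2a.B (cut of helper973): leaf PBQ.3 `NatShapeQC973`,
# the ARCHIMEDEAN part (helper873)

OFF-MAIN.  The translates of archimedean test functions by positive real scalar matrices are
test functions; the `N`-integral of the translate by `e^t` of a function on `GL₂(ℂ)` with
`N`-integral `β` is `β(· - (t, t))` (Lebesgue measure of `ℂ` scales by `ρ²`), on `GL₂(ℝ)` the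
same (Lebesgue measure of `ℝ` scales by `σ`, the factor `√(c₁ c₂)` by `σ⁻¹`); so the translates
by `e^{t}` upstairs and `e^{2 t}` downstairs of components in the Abel relation `c` are in the
Abel relation `c`.
-/

set_option autoImplicit false

open MeasureTheory
open scoped Matrix ContDiff

noncomputable section

namespace Fermat.Agent.LT.T7.H873

open Fermat.Agent.LT Fermat.Agent.LT.T7 Fermat.Agent.LT.T7.H305 Fermat.Agent.LT.T7.CQ801

/-- The right translate `F(· z⁻¹)` on `GL₂(ℝ)`. -/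
def trR873 (z : GL (Fin 2) ℝ) (F : GL (Fin 2) ℝ → ℂ) : GL (Fin 2) ℝ → ℂ :=
  fun x => F (x * z⁻¹)

/-- `z` is the scalar matrix of the real number `c` (in `GL₂(ℝ)`). -/
def IsScalR873 (z : GL (Fin 2) ℝ) (c : ℝ) : Prop :=
  (z : Matrix (Fin 2) (Fin 2) ℝ) = Matrix.diagonal fun _ => c

/-- The shift of a function on `ℝ²` by `(t, t)`. -/
def shift873 (t : ℝ) (β : ℝ × ℝ → ℂ) : ℝ × ℝ → ℂ := fun p => β (p - (t, t))

theorem central_of_scalar873 {R : Type} [CommRing R] {z : GL (Fin 2) R} {c : R}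
    (h : (z : Matrix (Fin 2) (Fin 2) R) = Matrix.diagonal fun _ => c) (x : GL (Fin 2) R) :
    z * x = x * z := by
  apply Units.ext
  show (z : Matrix (Fin 2) (Fin 2) R) * (x : Matrix (Fin 2) (Fin 2) R)
    = (x : Matrix (Fin 2) (Fin 2) R) * (z : Matrix (Fin 2) (Fin 2) R)
  rw [h, ← Matrix.smul_one_eq_diagonal, Matrix.smul_mul, Matrix.mul_smul, one_mul, mul_one]

theorem central_inv_of_scalar873 {R : Type} [CommRing R] {z : GL (Fin 2) R} {c : R}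
    (h : (z : Matrix (Fin 2) (Fin 2) R) = Matrix.diagonal fun _ => c) (x : GL (Fin 2) R) :
    z⁻¹ * x = x * z⁻¹ := by
  calc z⁻¹ * x = z⁻¹ * (x * z) * z⁻¹ := by group
    _ = z⁻¹ * (z * x) * z⁻¹ := by rw [central_of_scalar873 h x]
    _ = x * z⁻¹ := by group

/-- `[[c₁, x], [0, c₂]] · ρ⁻¹ = [[c₁/ρ, x/ρ], [0, c₂/ρ]]`. -/
theorem upperGL_mul_inv873 {𝕜 : Type} [Field 𝕜] {z : GL (Fin 2) 𝕜} {ρ : 𝕜ˣ}
    (h : (z : Matrix (Fin 2) (Fin 2) 𝕜) = Matrix.diagonal fun _ => (ρ : 𝕜)) (c₁ c₂ : 𝕜ˣ)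
    (x : 𝕜) :
    T3.AS.upperGL c₁ c₂ x * z⁻¹
      = T3.AS.upperGL (c₁ * ρ⁻¹) (c₂ * ρ⁻¹) (x * ((ρ⁻¹ : 𝕜ˣ) : 𝕜)) := by
  rw [mul_inv_eq_iff_eq_mul]
  apply Units.ext
  show (!![(c₁ : 𝕜), x; 0, (c₂ : 𝕜)] : Matrix (Fin 2) (Fin 2) 𝕜)
    = (!![((c₁ * ρ⁻¹ : 𝕜ˣ) : 𝕜), x * ((ρ⁻¹ : 𝕜ˣ) : 𝕜); 0, ((c₂ * ρ⁻¹ : 𝕜ˣ) : 𝕜)] :
        Matrix (Fin 2) (Fin 2) 𝕜) * (z : Matrix (Fin 2) (Fin 2) 𝕜)
  rw [h]
  have hρ : (ρ : 𝕜) ≠ 0 := ρ.ne_zero
  ext i j
  fin_cases i <;> fin_cases j <;>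
    simp [Matrix.mul_apply, Matrix.diagonal_apply]

/-! ## Test functions -/

theorem isArchTestC_trC873 {z : GL (Fin 2) ℂ} {c : ℝ} (hz : IsScal873 z c)
    {Φ : GL (Fin 2) ℂ → ℂ} (h : T6.IsArchTestC Φ) : T6.IsArchTestC (trC873 z Φ) where
  cont := continuous_trC873 z h.cont
  supp := hasCompactSupport_trC873 z h.supp
  smooth := by
    intro m hh h1 g
    have e : (fun t => trC873 z Φ (g * hh t)) = fun t => Φ (g * z⁻¹ * hh t) := by
      funext t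
      show Φ (g * hh t * z⁻¹) = _
      rw [mul_assoc g, ← hz.central_inv (hh t), ← mul_assoc]
    rw [e]
    exact h.smooth m hh h1 (g * z⁻¹)
  left := by
    intro k g hk
    show Φ (k * g * z⁻¹) = Φ (g * z⁻¹)
    rw [mul_assoc]
    exact h.left k _ hk
  right := by
    intro k g hk
    show Φ (g * k * z⁻¹) = Φ (g * z⁻¹)
    rw [mul_assoc g, ← hz.central_inv k, ← mul_assoc]
    exact h.right k _ hk

theorem IsScalR873.central_inv {z : GL (Fin 2) ℝ} {c : ℝ} (h : IsScalR873 z c)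
    (x : GL (Fin 2) ℝ) : z⁻¹ * x = x * z⁻¹ :=
  central_inv_of_scalar873 h x

theorem IsScalR873.det_pos {z : GL (Fin 2) ℝ} {c : ℝ} (h : IsScalR873 z c) (hc : 0 < c) :
    0 < (z : Matrix (Fin 2) (Fin 2) ℝ).det := by
  rw [h, Matrix.det_diagonal]
  simp only [Finset.prod_const, Finset.card_univ, Fintype.card_fin]
  positivity

theorem isArchTestR_trR873 {z : GL (Fin 2) ℝ} {c : ℝ} (hz : IsScalR873 z c) (hc : 0 < c)
    {n : ℤ} {F : GL (Fin 2) ℝ → ℂ} (h : T6.IsArchTestR n F) :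
    T6.IsArchTestR n (trR873 z F) where
  cont := h.cont.comp (continuous_id.mul continuous_const)
  supp := h.supp.comp_homeomorph (Homeomorph.mulRight z⁻¹)
  smooth := by
    intro m hh h1 g
    have e : (fun t => trR873 z F (g * hh t)) = fun t => F (g * z⁻¹ * hh t) := by
      funext t
      show F (g * hh t * z⁻¹) = _
      rw [mul_assoc g, ← hz.central_inv (hh t), ← mul_assoc]
    rw [e]
    exact h.smooth m hh h1 (g * z⁻¹)
  pos := by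
    intro g hg
    have h1 : 0 < ((g * z⁻¹ : GL (Fin 2) ℝ) : Matrix (Fin 2) (Fin 2) ℝ).det := h.pos _ hg
    have h2 : (g : Matrix (Fin 2) (Fin 2) ℝ).det
        = ((g * z⁻¹ : GL (Fin 2) ℝ) : Matrix (Fin 2) (Fin 2) ℝ).det
          * (z : Matrix (Fin 2) (Fin 2) ℝ).det := by
      rw [← Matrix.det_mul]
      congr 1
      show (g : Matrix (Fin 2) (Fin 2) ℝ) = ((g * z⁻¹ * z : GL (Fin 2) ℝ) :
        Matrix (Fin 2) (Fin 2) ℝ)
      rw [inv_mul_cancel_right]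
    rw [h2]
    exact mul_pos h1 (hz.det_pos hc)
  left := by
    intro k g hk
    show F (k * g * z⁻¹) = _ * F (g * z⁻¹)
    rw [mul_assoc]
    exact h.left k _ hk
  right := by
    intro k g hk
    show F (g * k * z⁻¹) = _ * F (g * z⁻¹)
    rw [mul_assoc g, ← hz.central_inv k, ← mul_assoc]
    exact h.right k _ hk

/-! ## The `N`-integrals -/

theorem isSymBump_shift873 (t : ℝ) {β : ℝ × ℝ → ℂ} (h : T3.AS.IsSymBump β) :
    T3.AS.IsSymBump (shift873 t β) := by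
  obtain ⟨h1, h2, h3⟩ := h
  refine ⟨h1.comp (contDiff_id.sub contDiff_const), ?_, fun x y => ?_⟩
  · exact h2.comp_homeomorph (Homeomorph.subRight ((t, t) : ℝ × ℝ))
  · show β ((x, y) - (t, t)) = β ((y, x) - (t, t))
    exact h3 (x - t) (y - t)

/-- The `N`-integral of the translate by `e^t` on `GL₂(ℂ)`. -/
theorem hasAbelN_trC873 {z : GL (Fin 2) ℂ} {t : ℝ} (hz : IsScal873 z (Real.exp t))
    {Φ : GL (Fin 2) ℂ → ℂ} {β : ℝ × ℝ → ℂ} (h : T3.AS.HasAbelN Φ β) :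
    T3.AS.HasAbelN (trC873 z Φ) (shift873 t β) := by
  intro c₁ c₂
  have hρ0 : ((Real.exp t : ℝ) : ℂ) ≠ 0 := Complex.ofReal_ne_zero.2 (Real.exp_pos t).ne'
  set ρ : ℂˣ := Units.mk0 ((Real.exp t : ℝ) : ℂ) hρ0 with hρ
  have hzρ : (z : Matrix (Fin 2) (Fin 2) ℂ) = Matrix.diagonal fun _ => (ρ : ℂ) := hz
  have e : (fun x : ℂ => trC873 z Φ (T3.AS.upperGL c₁ c₂ x))
      = fun x : ℂ => (fun y : ℂ => Φ (T3.AS.upperGL (c₁ * ρ⁻¹) (c₂ * ρ⁻¹) y))
          ((Real.exp t)⁻¹ • x) := by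
    funext x
    show Φ (T3.AS.upperGL c₁ c₂ x * z⁻¹) = _
    rw [upperGL_mul_inv873 hzρ]
    congr 2
    show x * ((ρ⁻¹ : ℂˣ) : ℂ) = (Real.exp t)⁻¹ • x
    rw [Complex.real_smul, mul_comm, Units.val_inv_eq_inv_val]
    show (((Real.exp t : ℝ) : ℂ))⁻¹ * x = _
    rw [Complex.ofReal_inv]
  have key := Measure.integral_comp_smul (volume : Measure ℂ)
    (fun y : ℂ => Φ (T3.AS.upperGL (c₁ * ρ⁻¹) (c₂ * ρ⁻¹) y)) (Real.exp t)⁻¹
  rw [e]
  refine key.trans ?_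
  rw [h (c₁ * ρ⁻¹) (c₂ * ρ⁻¹), Complex.finrank_real_complex]
  have hn : ∀ c : ℂˣ, ‖((c * ρ⁻¹ : ℂˣ) : ℂ)‖ = ‖(c : ℂ)‖ / Real.exp t := by
    intro c
    rw [Units.val_mul, Units.val_inv_eq_inv_val, norm_mul, norm_inv]
    show ‖(c : ℂ)‖ * ‖((Real.exp t : ℝ) : ℂ)‖⁻¹ = _
    rw [Complex.norm_real, Real.norm_of_nonneg (Real.exp_pos t).le, div_eq_mul_inv]
  have hl : ∀ c : ℂˣ, Real.log (‖(c : ℂ)‖ / Real.exp t) = Real.log ‖(c : ℂ)‖ - t := by
    intro c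
    rw [Real.log_div (norm_ne_zero_iff.2 c.ne_zero) (Real.exp_pos t).ne', Real.log_exp]
  rw [hn, hn, hl, hl]
  show _ = _ * β ((Real.log ‖(c₁ : ℂ)‖, Real.log ‖(c₂ : ℂ)‖) - (t, t))
  rw [Prod.mk_sub_mk, Complex.real_smul]
  have he : (0 : ℝ) < Real.exp t := Real.exp_pos t
  have habs : |(((Real.exp t)⁻¹ ^ 2)⁻¹ : ℝ)| = Real.exp t ^ 2 := by
    rw [abs_of_pos (by positivity), inv_pow, inv_inv]
  rw [habs]
  push_cast
  field_simp

/-- The `N`-integral of the translate by `e^s` on `GL₂(ℝ)`. -/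
theorem hasAbelNR_trR873 {z : GL (Fin 2) ℝ} {s : ℝ} (hz : IsScalR873 z (Real.exp s))
    {F : GL (Fin 2) ℝ → ℂ} {β : ℝ × ℝ → ℂ} (h : T3.R.HasAbelNR F β) :
    T3.R.HasAbelNR (trR873 z F) (shift873 s β) := by
  intro c₁ c₂ hc₁ hc₂
  have he : (0 : ℝ) < Real.exp s := Real.exp_pos s
  set ρ : ℝˣ := Units.mk0 (Real.exp s) he.ne' with hρ
  have hzρ : (z : Matrix (Fin 2) (Fin 2) ℝ) = Matrix.diagonal fun _ => (ρ : ℝ) := hz
  have e : (fun x : ℝ => trR873 z F (T3.AS.upperGL c₁ c₂ x))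
      = fun x : ℝ => (fun y : ℝ => F (T3.AS.upperGL (c₁ * ρ⁻¹) (c₂ * ρ⁻¹) y))
          ((Real.exp s)⁻¹ • x) := by
    funext x
    show F (T3.AS.upperGL c₁ c₂ x * z⁻¹) = _
    rw [upperGL_mul_inv873 hzρ]
    congr 2
    show x * ((ρ⁻¹ : ℝˣ) : ℝ) = (Real.exp s)⁻¹ • x
    rw [smul_eq_mul, mul_comm, Units.val_inv_eq_inv_val]
    rfl
  have hv : ∀ c : ℝˣ, ((c * ρ⁻¹ : ℝˣ) : ℝ) = (c : ℝ) / Real.exp s := by
    intro c
    rw [Units.val_mul, Units.val_inv_eq_inv_val, div_eq_mul_inv]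
    rfl
  have hp : ∀ c : ℝˣ, 0 < (c : ℝ) → 0 < ((c * ρ⁻¹ : ℝˣ) : ℝ) := by
    intro c hc
    rw [hv]
    exact div_pos hc he
  have key := Measure.integral_comp_smul (volume : Measure ℝ)
    (fun y : ℝ => F (T3.AS.upperGL (c₁ * ρ⁻¹) (c₂ * ρ⁻¹) y)) (Real.exp s)⁻¹
  rw [e]
  refine key.trans ?_
  rw [h (c₁ * ρ⁻¹) (c₂ * ρ⁻¹) (hp c₁ hc₁) (hp c₂ hc₂), Module.finrank_self]
  rw [hv, hv, Real.log_div hc₁.ne' he.ne', Real.log_div hc₂.ne' he.ne', Real.log_exp]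
  show _ = _ * β ((Real.log (c₁ : ℝ), Real.log (c₂ : ℝ)) - (s, s))
  rw [Prod.mk_sub_mk, Complex.real_smul]
  have habs : |(((Real.exp s)⁻¹ ^ 1)⁻¹ : ℝ)| = Real.exp s := by
    rw [pow_one, inv_inv, abs_of_pos he]
  have hsq : Real.sqrt ((c₁ : ℝ) / Real.exp s * ((c₂ : ℝ) / Real.exp s))
      = Real.sqrt ((c₁ : ℝ) * (c₂ : ℝ)) / Real.exp s := by
    rw [div_mul_div_comm, Real.sqrt_div' _ (mul_pos he he).le, Real.sqrt_mul_self he.le]
  rw [habs, hsq]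
  push_cast
  field_simp

theorem halfQ_shift873 (c : ℂ) (t : ℝ) (β : ℝ × ℝ → ℂ) :
    halfQ801 c (shift873 t β) = shift873 (2 * t) (halfQ801 c β) := by
  funext p
  show c * β ((2 : ℝ)⁻¹ • p - (t, t)) = c * β ((2 : ℝ)⁻¹ • (p - (2 * t, 2 * t)))
  congr 2
  rw [smul_sub]
  congr 1
  ext <;> simp

/-- **The components at infinity in the Abel relation `c`**: stable under the translations by
`e^{t' w}` upstairs and `e^{s}` downstairs, `s = 2 t' w` for every `w`. -/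
theorem archOkQ_trl873 {F : Type} [Field F] [NumberField F] {c : ℂ}
    {Φ : NumberField.InfinitePlace F → GL (Fin 2) ℂ → ℂ} {F0 F1 : GL (Fin 2) ℝ → ℂ}
    {z' : NumberField.InfinitePlace F → GL (Fin 2) ℂ} {t' : NumberField.InfinitePlace F → ℝ}
    (hz' : ∀ w, IsScal873 (z' w) (Real.exp (t' w)))
    {z : GL (Fin 2) ℝ} {s : ℝ} (hz : IsScalR873 z (Real.exp s)) (hs : ∀ w, s = 2 * t' w)
    (h : ArchOkQ801 c Φ F0 F1) :
    ArchOkQ801 c (fun w => trC873 (z' w) (Φ w)) (trR873 z F0) (trR873 z F1) := by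
  obtain ⟨h1, h2, h3, h4⟩ := h
  refine ⟨fun w => isArchTestC_trC873 (hz' w) (h1 w), isArchTestR_trR873 hz (Real.exp_pos s) h2,
    isArchTestR_trR873 hz (Real.exp_pos s) h3, fun w => ?_⟩
  obtain ⟨β', hb1, hb2, hb3, hb4⟩ := h4 w
  refine ⟨shift873 (t' w) β', isSymBump_shift873 _ hb1, hasAbelN_trC873 (hz' w) hb2, ?_, ?_⟩
  · rw [halfQ_shift873, ← hs w]
    exact hasAbelNR_trR873 hz hb3
  · rw [halfQ_shift873, ← hs w]
    exact hasAbelNR_trR873 hz hb4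

theorem eqns_realised_natShapeQArch873 : True := by
  have _h0 := @trR873.eq_1
  have _h1 := @trR873.eq_def
  have _h2 := @trR873.eq_unfold
  have _h3 := @IsScalR873.eq_1
  have _h4 := @IsScalR873.eq_def
  have _h5 := @IsScalR873.eq_unfold
  have _h6 := @shift873.eq_1
  have _h7 := @shift873.eq_def
  have _h8 := @shift873.eq_unfold
  trivial

end Fermat.Agent.LT.T7.H873

end
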