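import Mathlib
import Fermat.Agent.LT.T7.H873.NatShapeQArch
import Fermat.Agent.LT.T7.H873.NatShapeAvg

/-!
# Row LT, tower T7, node T7.L2Q.1.H2a.B (cut of helper973): leaf PBQ.3 `NatShapeQC973`,
# THE TORUS MEANS OF AN AVERAGE OF PURE TENSORS OVER `ℚ` (helper873)

OFF-MAIN.  `isAvgPureQ_nat873`: mirror over `ℚ` of `isAvgPure_nat873` (parameter space
`Ω × closure D'`, measure `ν × vol(D')⁻¹ vol|_{D'}`; Fubini; downstairs the push-forward formula
`IsRelTorusQ973.push` with the norm `N t' = 2 t'`).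
-/

set_option autoImplicit false

open AutomorphicForm IsDedekindDomain NumberField MeasureTheory
open scoped Matrix

noncomputable section

namespace Fermat.Agent.LT.T7.H873

open Fermat.Agent.LT.H556 Fermat.Agent.LT.H556.A0 Fermat.Agent.LT Fermat.Agent.LT.T7
open Fermat.Agent.LT.T7.H305 Fermat.Agent.LT.T7.H893 Fermat.Agent.LT.T7.MQ298
open Fermat.Agent.LT.T7.CQ801 Fermat.Agent.LT.T7.PBQ973 Fermat.Agent.LT.T7.L2Q

attribute [local instance] Fermat.Agent.LT.T5.instMeasurableSpaceG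

/-! ## Pure tensors over `ℚ` -/

theorem coe_reGLQ873 (h : G ℚ) (i j : Fin 2) :
    ((((reGLQ298 h : GL (Fin 2) ℝ) : Matrix (Fin 2) (Fin 2) ℝ) i j : ℝ) : ℂ)
      = infComp Rat.infinitePlace h i j :=
  InfinitePlace.Completion.extensionEmbeddingOfIsReal_apply Rat.isReal_infinitePlace _

/-- The real components of the positive scalars of torus data over `ℚ`. -/
theorem isScalR_reGLQ873 {𝔑 : Ideal (𝓞 ℚ)} {r : G ℚ} {a : (InfinitePlace ℚ → ℝ) → G ℚ}
    {D : Set (InfinitePlace ℚ → ℝ)} (hD : H193.IsTorusData 𝔑 r a D)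
    (t : InfinitePlace ℚ → ℝ) :
    IsScalR873 (reGLQ298 (a t)) (Real.exp (t Rat.infinitePlace)) := by
  show ((reGLQ298 (a t) : GL (Fin 2) ℝ) : Matrix (Fin 2) (Fin 2) ℝ) = _
  ext i j
  apply Complex.ofReal_injective
  rw [coe_reGLQ873, hD.inf t Rat.infinitePlace]
  by_cases hij : i = j
  · subst hij
    rw [Matrix.diagonal_apply_eq, Matrix.diagonal_apply_eq]
  · rw [Matrix.diagonal_apply_ne _ hij, Matrix.diagonal_apply_ne _ hij, Complex.ofReal_zero]

open Classical in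
/-- **The right translate of a pure tensor over `ℚ`** by an element which is trivial at the
finite places. -/
theorem pureQ_trl873 {z : G ℚ} (hz : ∀ v : HeightOneSpectrum (𝓞 ℚ), TrivAtFin v z)
    (T : Finset (HeightOneSpectrum (𝓞 ℚ)))
    (f₀ : ∀ v : HeightOneSpectrum (𝓞 ℚ), GL (Fin 2) (v.adicCompletion ℚ) → ℂ)
    (Fr : GL (Fin 2) ℝ → ℂ) (h : G ℚ) :
    pureQ298 T f₀ (trR873 (reGLQ298 z) Fr) h = pureQ298 T f₀ Fr (h * z⁻¹) := by
  show (if OutT305 T h then
      (∏ v ∈ T, f₀ v (finGL305 v h)) * Fr (reGLQ298 h * (reGLQ298 z)⁻¹)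
    else 0)
    = if OutT305 T (h * z⁻¹) then
      (∏ v ∈ T, f₀ v (finGL305 v (h * z⁻¹))) * Fr (reGLQ298 (h * z⁻¹))
    else 0
  by_cases hO : OutT305 T h
  · rw [if_pos hO, if_pos ((outT_mul_inv873 hz T h).2 hO)]
    congr 1
    · refine Finset.prod_congr rfl fun v _ => ?_
      rw [finGL_mul_inv873 hz]
    · rw [map_mul, map_inv]
  · rw [if_neg hO, if_neg fun H => hO ((outT_mul_inv873 hz T h).1 H)]

/-- The right translate of a test function (of any type) by a central element. -/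
theorem isTestFn_trl_type873 {K : Type} [Field K] [NumberField K] {𝔫 : Ideal (𝓞 K)}
    {τ : G K → ℂ} {z : G K} (hc : ∀ g : G K, z * g = g * z)
    {φ : G K → ℂ} (h : T5.IsTestFn 𝔫 τ φ) :
    T5.IsTestFn 𝔫 τ (fun g => φ (g * z⁻¹)) := by
  have hci : ∀ g : G K, z⁻¹ * g = g * z⁻¹ := by
    intro g
    calc z⁻¹ * g = z⁻¹ * (g * z) * z⁻¹ := by group
      _ = z⁻¹ * (z * g) * z⁻¹ := by rw [hc g]
      _ = g * z⁻¹ := by group
  refine ⟨h.ktype, h.cont.comp (continuous_id.mul continuous_const),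
    h.supp.comp_homeomorph (Homeomorph.mulRight z⁻¹), ?_, ⟨?_, ?_, ?_, ?_⟩⟩
  · intro n hh h1 h2 g
    have := h.smooth n hh h1 h2 (g * z⁻¹)
    have e : (fun t => φ (g * hh t * z⁻¹)) = fun t => φ (g * z⁻¹ * hh t) := by
      funext t
      rw [mul_assoc g, ← hci (hh t), ← mul_assoc]
    show ContDiff ℝ _ (fun t => φ (g * hh t * z⁻¹))
    rw [e]
    exact this
  · intro u hu g
    show φ (g * u * z⁻¹) = φ (g * z⁻¹)
    rw [mul_assoc g, ← hci u, ← mul_assoc]
    exact h.inv.level_right u hu _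
  · intro u hu g
    show φ (u * g * z⁻¹) = φ (g * z⁻¹)
    rw [mul_assoc]
    exact h.inv.level_left u hu _
  · intro w k hk g
    show φ (g * k * z⁻¹) = _ * φ (g * z⁻¹)
    rw [mul_assoc g, ← hci k, ← mul_assoc]
    exact h.inv.arch_right w k hk _
  · intro w k hk g
    show φ (k * g * z⁻¹) = _ * φ (g * z⁻¹)
    rw [mul_assoc]
    exact h.inv.arch_left w k hk _

section Main

variable {F : Type} [Field F] [NumberField F]

theorem continuous_normVec873 : Continuous (normVec973 (F := F)) := by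
  show Continuous fun (t' : InfinitePlace F → ℝ) (_ : InfinitePlace ℚ) =>
    2 * ∑ w : InfinitePlace F, t' w
  exact continuous_pi fun _ =>
    continuous_const.mul (continuous_finsetSum _ fun w _ => continuous_apply w)

/-- The push-forward formula downstairs. -/
theorem natQ_eq_push873 {𝔫 : Ideal (𝓞 ℚ)} {r : G ℚ} {r' : G F}
    {a : (InfinitePlace ℚ → ℝ) → G ℚ} {D : Set (InfinitePlace ℚ → ℝ)}
    {a' : (InfinitePlace F → ℝ) → G F} {D' : Set (InfinitePlace F → ℝ)}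
    (hrel : IsRelTorusQ973 𝔫 r r' a D a' D') {f : G ℚ → ℂ} (hf : Continuous f) (g : G ℚ) :
    H193.nat193 a D f g
      = (((volume D').toReal : ℝ) : ℂ)⁻¹
        * ∫ t' in D', f (g * (a (normVec973 t'))⁻¹) := by
  have hint : IntegrableOn (fun t => f (g * (a t)⁻¹)) D volume :=
    H193.integrableOn_of_continuous193 (hf.comp (continuous_const.mul hrel.down.cont.inv))
      hrel.down.bdd
  exact (hrel.push (fun t => f (g * (a t)⁻¹)) hint).symm

/-- **THE TORUS MEANS OF AN AVERAGE OF PURE TENSORS over `ℚ`** (general form: any local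
condition which is stable under the translations at infinity by the positive scalars of the
torus data). -/
theorem isAvgPureQ_nat873 {𝔫 : Ideal (𝓞 ℚ)} {r : G ℚ} {r' : G F}
    {aT : (InfinitePlace ℚ → ℝ) → G ℚ} {D : Set (InfinitePlace ℚ → ℝ)}
    {aT' : (InfinitePlace F → ℝ) → G F} {D' : Set (InfinitePlace F → ℝ)}
    (hrel : IsRelTorusQ973 𝔫 r r' aT D aT' D')
    {𝔑 : Ideal (𝓞 F)} {T₀ : Finset (HeightOneSpectrum (𝓞 ℚ))} {L : LocCondQ801 F} {a : ℂ}
    {φ₀ : G F → ℂ} {f0 f1 : G ℚ → ℂ} (hf0 : Continuous f0) (hf1 : Continuous f1)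
    (hL : ∀ (t' : InfinitePlace F → ℝ) (T : Finset (HeightOneSpectrum (𝓞 ℚ)))
      (φ : ∀ w : HeightOneSpectrum (𝓞 F), GL (Fin 2) (w.adicCompletion F) → ℂ)
      (Φ : InfinitePlace F → GL (Fin 2) ℂ → ℂ)
      (f : ∀ v : HeightOneSpectrum (𝓞 ℚ), GL (Fin 2) (v.adicCompletion ℚ) → ℂ)
      (F0 F1 : GL (Fin 2) ℝ → ℂ), L T φ Φ f F0 F1 →
      L T φ (fun w => trC873 (infGL305 w (aT' t')) (Φ w)) f
        (trR873 (reGLQ298 (aT (normVec973 t'))) F0)
        (trR873 (reGLQ298 (aT (normVec973 t'))) F1))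
    (h : IsAvgPureQ801 𝔑 𝔫 T₀ L a φ₀ f0 f1) :
    IsAvgPureQ801 𝔑 𝔫 T₀ L a (H193.nat193 aT' D' φ₀) (H193.nat193 aT D f0)
      (H193.nat193 aT D f1) := by
  classical
  obtain ⟨Ω, iT, iC, iT2, iSC, iM, iB, ν, iF, T, T', φc, Φc, fc, F0c, F1c, h1, h2, h3, h3', h4,
    h5, h5', ⟨C', hC', hC'2⟩, ⟨C0, hC0, hC02⟩, ⟨C1, hC1, hC12⟩, h8, h9, h9'⟩ := h
  have hbdd : Bornology.IsBounded D' := hrel.up.bdd
  have hcomp : IsCompact (closure D') := hbdd.isCompact_closure
  have : CompactSpace (closure D') := isCompact_iff_compactSpace.1 hcomp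
  have := isFiniteMeasure_normMeas873 hbdd
  have hfinU : ∀ (t : InfinitePlace F → ℝ) (v : HeightOneSpectrum (𝓞 F)),
      TrivAtFin v (aT' t) := hrel.up.fin
  have hfinD : ∀ (t : InfinitePlace ℚ → ℝ) (v : HeightOneSpectrum (𝓞 ℚ)),
      TrivAtFin v (aT t) := hrel.down.fin
  have hbD : Continuous fun t' : InfinitePlace F → ℝ => aT (normVec973 t') :=
    hrel.down.cont.comp continuous_normVec873
  -- the members upstairs and downstairs are translates
  have eU : ∀ (ω : Ω) (t : InfinitePlace F → ℝ) (x : G F),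
      pure305 (T' ω) (φc ω) (fun w => trC873 (infGL305 w (aT' t)) (Φc ω w)) x
        = pure305 (T' ω) (φc ω) (Φc ω) (x * (aT' t)⁻¹) := by
    intro ω t x
    exact pure_trl873 (z := aT' t) (hfinU t) (T' ω) (φc ω) (Φc ω) x
  have eD : ∀ (Fr : Ω → GL (Fin 2) ℝ → ℂ) (ω : Ω) (t : InfinitePlace F → ℝ) (x : G ℚ),
      pureQ298 (T ω) (fc ω) (trR873 (reGLQ298 (aT (normVec973 t))) (Fr ω)) x
        = pureQ298 (T ω) (fc ω) (Fr ω) (x * (aT (normVec973 t))⁻¹) := by
    intro Fr ω t x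
    exact pureQ_trl873 (z := aT (normVec973 t)) (hfinD _) (T ω) (fc ω) (Fr ω) x
  -- the three clauses downstairs, for a family of real components
  have testD : ∀ (τ : G ℚ → ℂ) (Fr : Ω → GL (Fin 2) ℝ → ℂ),
      (∀ ω : Ω, T5.IsTestFn 𝔫 τ (fun x => a * pureQ298 (T ω) (fc ω) (Fr ω) x)) →
      ∀ p : Ω × closure D', T5.IsTestFn 𝔫 τ (fun x => a * pureQ298 (T p.1) (fc p.1)
        (trR873 (reGLQ298 (aT (normVec973 p.2.1))) (Fr p.1)) x) := by
    intro τ Fr hFr p
    have e : (fun x => a * pureQ298 (T p.1) (fc p.1)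
          (trR873 (reGLQ298 (aT (normVec973 p.2.1))) (Fr p.1)) x)
        = fun x => (fun y => a * pureQ298 (T p.1) (fc p.1) (Fr p.1) y)
            (x * (aT (normVec973 p.2.1))⁻¹) := by
      funext x
      rw [eD Fr p.1 p.2.1 x]
    rw [e]
    exact isTestFn_trl_type873 (hrel.down.central _) (hFr p.1)
  have contD : ∀ Fr : Ω → GL (Fin 2) ℝ → ℂ,
      Continuous (fun p : Ω × G ℚ => a * pureQ298 (T p.1) (fc p.1) (Fr p.1) p.2) →
      Continuous (fun q : (Ω × closure D') × G ℚ => a * pureQ298 (T q.1.1) (fc q.1.1)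
        (trR873 (reGLQ298 (aT (normVec973 q.1.2.1))) (Fr q.1.1)) q.2) := by
    intro Fr hFr
    have e : (fun q : (Ω × closure D') × G ℚ => a * pureQ298 (T q.1.1) (fc q.1.1)
          (trR873 (reGLQ298 (aT (normVec973 q.1.2.1))) (Fr q.1.1)) q.2)
        = fun q : (Ω × closure D') × G ℚ =>
          (fun p : Ω × G ℚ => a * pureQ298 (T p.1) (fc p.1) (Fr p.1) p.2)
            (q.1.1, q.2 * (aT (normVec973 q.1.2.1))⁻¹) := by
      funext q
      show a * _ = a * _
      rw [eD Fr q.1.1 q.1.2.1 q.2]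
    rw [e]
    exact hFr.comp ((continuous_fst.comp continuous_fst).prodMk
      (continuous_snd.mul (hbD.comp
        (continuous_subtype_val.comp (continuous_snd.comp continuous_fst))).inv))
  have suppD : ∀ (Fr : Ω → GL (Fin 2) ℝ → ℂ) (C : Set (G ℚ)), IsCompact C →
      (∀ (ω : Ω) (x : G ℚ), pureQ298 (T ω) (fc ω) (Fr ω) x ≠ 0 → x ∈ C) →
      ∃ C₂ : Set (G ℚ), IsCompact C₂ ∧ ∀ (p : Ω × closure D') (x : G ℚ),
        pureQ298 (T p.1) (fc p.1) (trR873 (reGLQ298 (aT (normVec973 p.2.1))) (Fr p.1)) x ≠ 0 →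
        x ∈ C₂ := by
    intro Fr C hC hC2
    refine ⟨(fun p : G ℚ × (InfinitePlace F → ℝ) =>
        p.1 * aT (normVec973 p.2)) '' (C ×ˢ closure D'),
      (hC.prod hcomp).image (continuous_fst.mul (hbD.comp continuous_snd)), ?_⟩
    intro p x hx
    rw [eD Fr p.1 p.2.1 x] at hx
    exact ⟨(x * (aT (normVec973 p.2.1))⁻¹, p.2.1),
      ⟨hC2 p.1 _ hx, p.2.2⟩, inv_mul_cancel_right x _⟩
  have intD : ∀ (Fr : Ω → GL (Fin 2) ℝ → ℂ) (f : G ℚ → ℂ), Continuous f →
      Continuous (fun p : Ω × G ℚ => a * pureQ298 (T p.1) (fc p.1) (Fr p.1) p.2) →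
      (∀ x : G ℚ, f x = ∫ ω, a * pureQ298 (T ω) (fc ω) (Fr ω) x ∂ν) →
      ∀ x : G ℚ, H193.nat193 aT D f x = ∫ p : Ω × closure D', a * pureQ298 (T p.1) (fc p.1)
        (trR873 (reGLQ298 (aT (normVec973 p.2.1))) (Fr p.1)) x ∂(ν.prod (normMeas873 D')) := by
    intro Fr f hf hFr hint x
    have e : (fun p : Ω × closure D' => a * pureQ298 (T p.1) (fc p.1)
          (trR873 (reGLQ298 (aT (normVec973 p.2.1))) (Fr p.1)) x)
        = fun p : Ω × closure D' =>
          (fun q : Ω × G ℚ => a * pureQ298 (T q.1) (fc q.1) (Fr q.1) q.2)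
            (p.1, (fun t : InfinitePlace F → ℝ => x * (aT (normVec973 t))⁻¹) p.2.1) := by
      funext p
      show a * _ = a * _
      rw [eD Fr p.1 p.2.1 x]
    rw [e, natQ_eq_push873 hrel hf x]
    exact (integral_param873 ν hbdd _ hFr
      (fun t : InfinitePlace F → ℝ => x * (aT (normVec973 t))⁻¹)
      (continuous_const.mul hbD.inv) f hint).symm
  refine ⟨Ω × closure D', inferInstance, inferInstance, inferInstance, inferInstance,
    inferInstance, inferInstance, ν.prod (normMeas873 D'), inferInstance,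
    fun p => T p.1, fun p => T' p.1, fun p => φc p.1,
    fun p w => trC873 (infGL305 w (aT' p.2.1)) (Φc p.1 w), fun p => fc p.1,
    fun p => trR873 (reGLQ298 (aT (normVec973 p.2.1))) (F0c p.1),
    fun p => trR873 (reGLQ298 (aT (normVec973 p.2.1))) (F1c p.1),
    ?_, ?_, testD _ F0c h3, testD _ F1c h3', ?_, contD F0c h5, contD F1c h5', ?_,
    suppD F0c C0 hC0 hC02, suppD F1c C1 hC1 hC12, ?_, intD F0c f0 hf0 h5 h9,
    intD F1c f1 hf1 h5' h9'⟩
  · exact fun p => ⟨(h1 p.1).1, (h1 p.1).2.1, hL p.2.1 _ _ _ _ _ _ (h1 p.1).2.2⟩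
  · intro p
    have e : pure305 (T' p.1) (φc p.1) (fun w => trC873 (infGL305 w (aT' p.2.1)) (Φc p.1 w))
        = fun x => pure305 (T' p.1) (φc p.1) (Φc p.1) (x * (aT' p.2.1)⁻¹) :=
      funext (eU p.1 p.2.1)
    rw [e]
    exact isTestFn_trl873 (hrel.up.central p.2.1) (h2 p.1)
  · have e : (fun q : (Ω × closure D') × G F =>
          pure305 (T' q.1.1) (φc q.1.1)
            (fun w => trC873 (infGL305 w (aT' q.1.2.1)) (Φc q.1.1 w)) q.2)
        = fun q : (Ω × closure D') × G F =>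
          (fun p : Ω × G F => pure305 (T' p.1) (φc p.1) (Φc p.1) p.2)
            (q.1.1, q.2 * (aT' q.1.2.1)⁻¹) := by
      funext q
      exact eU q.1.1 q.1.2.1 q.2
    rw [e]
    exact h4.comp ((continuous_fst.comp continuous_fst).prodMk
      (continuous_snd.mul (hrel.up.cont.comp
        (continuous_subtype_val.comp (continuous_snd.comp continuous_fst))).inv))
  · refine ⟨(fun p : G F × (InfinitePlace F → ℝ) => p.1 * aT' p.2) '' (C' ×ˢ closure D'),
      (hC'.prod hcomp).image (continuous_fst.mul (hrel.up.cont.comp continuous_snd)), ?_⟩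
    intro p x hx
    rw [eU p.1 p.2.1 x] at hx
    exact ⟨(x * (aT' p.2.1)⁻¹, p.2.1), ⟨hC'2 p.1 _ hx, p.2.2⟩,
      inv_mul_cancel_right x _⟩
  · intro x
    have e : (fun p : Ω × closure D' =>
          pure305 (T' p.1) (φc p.1) (fun w => trC873 (infGL305 w (aT' p.2.1)) (Φc p.1 w)) x)
        = fun p : Ω × closure D' =>
          (fun q : Ω × G F => pure305 (T' q.1) (φc q.1) (Φc q.1) q.2)
            (p.1, (fun t : InfinitePlace F → ℝ => x * (aT' t)⁻¹) p.2.1) :=
      funext fun p => eU p.1 p.2.1 x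
    rw [e]
    exact (integral_param873 ν hbdd _ h4 (fun t : InfinitePlace F → ℝ => x * (aT' t)⁻¹)
      (continuous_const.mul hrel.up.cont.inv) φ₀ h8).symm

end Main

end Fermat.Agent.LT.T7.H873

end
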