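import Mathlib
import Fermat.Agent.LT.T7.H873.NatShapeQAvg

/-!
# Row LT, tower T7, node T7.L2Q.1.H2a.B `CQ801.PairBQC801` (cut of helper973,
# `T7/H973/PairBQSpec.lean`): LEAF PBQ.3 `NatShapeQC973` (helper873)

OFF-MAIN.  VERBATIM, UNCONDITIONAL:

    natShapeQC873 F : PBQ973.NatShapeQC973 F

Proof.  `isAvgPureQ_nat873` (`NatShapeQAvg.lean`: parameter space `Ω × closure D'`, Fubini,
the push-forward formula downstairs with the norm `N t' = 2 t'`) and the stability of the Abel
relation `c` under the translations by `e^{t'}` upstairs and `e^{2 t'}` downstairs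
(`NatShapeQArch.lean`: the `N`-integral of the translate is the shifted bump;
`F` has one infinite place).
-/

set_option autoImplicit false

open AutomorphicForm IsDedekindDomain NumberField MeasureTheory

noncomputable section

namespace Fermat.Agent.LT.T7.H873

open Fermat.Agent.LT.H556 Fermat.Agent.LT.H556.A0 Fermat.Agent.LT Fermat.Agent.LT.T7
open Fermat.Agent.LT.T7.H305 Fermat.Agent.LT.T7.H893 Fermat.Agent.LT.T7.MQ298
open Fermat.Agent.LT.T7.CQ801 Fermat.Agent.LT.T7.PBQ973 Fermat.Agent.LT.T7.L2Q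

variable (F : Type) [Field F] [NumberField F]

/-- **LEAF PBQ.3 `NatShapeQC973`.** -/
theorem natShapeQC873 : PBQ973.NatShapeQC973 F := by
  intro hquad Φ B _hB g 𝔫 _hlev μr μc _hμr _hμc T₀ n n₀ m _hexp c a _hc _ha c₂ φ₀ f₀ hpre
    aT D aT' D' hrel
  refine isAvgPureQ_nat873 hrel (hpre.dn_test QWt.w0).cont (hpre.dn_test QWt.w1).cont ?_
    hpre.shape
  intro t' T φ Φ' f F0 F1 hL
  obtain ⟨h1, h2, h3, h4, h5, h6⟩ := hL
  refine ⟨h1, h2, h3, h4, h5, archOkQ_trl873 (fun w => isScal_infGL873 hrel.up t' w)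
    (isScalR_reGLQ873 hrel.down _) ?_ h6⟩
  intro w
  show 2 * ∑ w' : InfinitePlace F, t' w' = 2 * t' w
  have : Subsingleton (InfinitePlace F) := (Nat.card_eq_one_iff_unique.1 hquad.1).1
  rw [Fintype.sum_subsingleton _ w]

end Fermat.Agent.LT.T7.H873

end
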